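import Mathlib
import Fermat.Agent.LT.H17.Board
import Fermat.Agent.LT.H130.Wall

/-!
# Row LT, tower A2, Galois side (`GalSeedC`): the fields cut out by `ρ` (helper230)

OFF-MAIN.  Imports: Mathlib + `LT/H17/Board.lean` + `LT/H130/Wall.lean` (byte-identical copies).
No definitions of automorphic objects, nothing assumed.

For `ρ : Gal(ℚ̄/ℚ) → GL₂(𝔽₃)` with `LTB.Hyp ρ Ψ` (continuous, surjective, `det ρ = χ̄₃`):

* `subQ8_eq_comap230`      : `subQ8 ρ = ρ⁻¹(Q8)`, `Q8 = {g | det g = 1, g⁴ = 1}` (a subgroup);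
* `fixingSubgroup_fieldE230` : the fixing subgroup of `E = fieldE ρ` is `subQ8 ρ`;
* `numberField_fieldE230`  : `E` is a number field;   `finrank_fieldE230 : [E : ℚ] = 6`;
* `isComplex_fieldE230`    : every infinite place of `E` is complex;
* `fieldL230 ρ`            : the fixed field `L` of `ρ⁻¹⟨g₀⟩`, `g₀ = [[0,-1],[1,0]]`;
  `fieldE_le_fieldL230`, `numberField_fieldL230`, `finrank_fieldL230 : [L : ℚ] = 12`,
  `finrank_fieldE_fieldL230 : [L : E] = 2` for the algebra structure of the inclusion.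
-/

set_option autoImplicit false
set_option linter.style.haveILetI false

open scoped MatrixGroups
open NumberField WeierstrassCurve

noncomputable section

namespace Fermat.Agent.LT.A2.H230

open Fermat.Agent.LT.H130

local notation "Γℚ" => (AlgebraicClosure ℚ ≃ₐ[ℚ] AlgebraicClosure ℚ)

/-- `ℚ̄ / ℚ` is Galois. -/
theorem isGalois_Qbar230 : IsGalois ℚ (AlgebraicClosure ℚ) := by
  haveI : Algebra.IsAlgebraic ℚ (AlgebraicClosure ℚ) := AlgebraicClosure.isAlgebraic ℚ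
  haveI : IsAlgClosure ℚ (AlgebraicClosure ℚ) := ⟨inferInstance, inferInstance⟩
  haveI : Normal ℚ (AlgebraicClosure ℚ) := IsAlgClosure.normal ℚ (AlgebraicClosure ℚ)
  exact isGalois_iff.mpr ⟨inferInstance, inferInstance⟩

/-! ## Topology: the kernel of `ρ` is open -/

theorem isOpen_ker230 {ρ : Γℚ →* GL (Fin 2) (ZMod 3)} (hρ : Continuous ρ) :
    IsOpen ((ρ.ker : Subgroup Γℚ) : Set Γℚ) := by
  have h : ((ρ.ker : Subgroup Γℚ) : Set Γℚ) = ρ ⁻¹' {1} := by
    ext σ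
    simp [MonoidHom.mem_ker]
  rw [h]
  exact (isOpen_discrete _).preimage hρ

/-! ## `subQ8 ρ` -/

/-- Every element of `subQ8 ρ` has determinant `1`. -/
theorem det_of_mem_subQ8_230 {ρ : Γℚ →* GL (Fin 2) (ZMod 3)} {σ : Γℚ} (h : σ ∈ subQ8 ρ) :
    Matrix.GeneralLinearGroup.det (ρ σ) = 1 := by
  have hle : subQ8 ρ ≤ (Matrix.GeneralLinearGroup.det.comp ρ).ker := by
    unfold subQ8
    rw [Subgroup.closure_le]
    intro τ hτ
    exact hτ.1
  exact hle h

theorem ker_le_subQ8_230 (ρ : Γℚ →* GL (Fin 2) (ZMod 3)) : ρ.ker ≤ subQ8 ρ := by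
  intro σ hσ
  apply Subgroup.subset_closure
  rw [MonoidHom.mem_ker] at hσ
  simp [hσ]

theorem isOpen_subQ8_230 {ρ : Γℚ →* GL (Fin 2) (ZMod 3)} (hρ : Continuous ρ) :
    IsOpen ((subQ8 ρ : Subgroup Γℚ) : Set Γℚ) :=
  Subgroup.isOpen_mono (ker_le_subQ8_230 ρ) (isOpen_ker230 hρ)

/-- The fixing subgroup of the fixed field of an OPEN subgroup `H` is `H`. -/
theorem fixingSubgroup_fixedField_of_isOpen230 (H : Subgroup Γℚ) (hH : IsOpen (H : Set Γℚ)) :
    (IntermediateField.fixedField H).fixingSubgroup = H := by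
  haveI := isGalois_Qbar230
  have hcl : IsClosed (H : Set Γℚ) := Subgroup.isClosed_of_isOpen H hH
  exact InfiniteGalois.fixingSubgroup_fixedField ⟨H, hcl⟩

/-- The fixed field of an open subgroup is finite over `ℚ`. -/
theorem finiteDimensional_fixedField_of_isOpen230 (H : Subgroup Γℚ) (hH : IsOpen (H : Set Γℚ)) :
    FiniteDimensional ℚ (IntermediateField.fixedField H) := by
  haveI := isGalois_Qbar230
  rw [← InfiniteGalois.isOpen_iff_finite]
  rw [fixingSubgroup_fixedField_of_isOpen230 H hH]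
  exact hH

/-- The degree of the fixed field of an open subgroup is the index. -/
theorem finrank_fixedField_of_isOpen230 (H : Subgroup Γℚ) (hH : IsOpen (H : Set Γℚ)) :
    Module.finrank ℚ (IntermediateField.fixedField H) = H.index := by
  haveI := isGalois_Qbar230
  rw [IntermediateField.finrank_eq_fixingSubgroup_index,
    fixingSubgroup_fixedField_of_isOpen230 H hH]

theorem fixingSubgroup_fieldE230 {ρ : Γℚ →* GL (Fin 2) (ZMod 3)} (hρ : Continuous ρ) :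
    (fieldE ρ).fixingSubgroup = subQ8 ρ :=
  fixingSubgroup_fixedField_of_isOpen230 _ (isOpen_subQ8_230 hρ)

theorem finiteDimensional_fieldE230 {ρ : Γℚ →* GL (Fin 2) (ZMod 3)} (hρ : Continuous ρ) :
    FiniteDimensional ℚ (fieldE ρ) :=
  finiteDimensional_fixedField_of_isOpen230 _ (isOpen_subQ8_230 hρ)

/-- **`E = fieldE ρ` is a number field.** -/
theorem numberField_fieldE230 {ρ : Γℚ →* GL (Fin 2) (ZMod 3)} (hρ : Continuous ρ) :
    NumberField (fieldE ρ) :=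
  haveI := finiteDimensional_fieldE230 hρ
  { to_charZero := inferInstance, to_finiteDimensional := inferInstance }

/-! ## Complex conjugation attached to an embedding `ℚ̄ → ℂ` -/

/-- For every embedding `ι : ℚ̄ → ℂ` there is `c ∈ Gal(ℚ̄/ℚ)` with `ι ∘ c = conj ∘ ι`. -/
theorem exists_conj230 (ι : AlgebraicClosure ℚ →+* ℂ) :
    ∃ c : Γℚ, ∀ x : AlgebraicClosure ℚ, ι (c x) = (starRingEnd ℂ) (ι x) := by
  haveI : Algebra.IsAlgebraic ℚ (AlgebraicClosure ℚ) := AlgebraicClosure.isAlgebraic ℚ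
  haveI : IsAlgClosure ℚ (AlgebraicClosure ℚ) := ⟨inferInstance, inferInstance⟩
  haveI : Normal ℚ (AlgebraicClosure ℚ) := IsAlgClosure.normal ℚ (AlgebraicClosure ℚ)
  letI : Algebra (AlgebraicClosure ℚ) ℂ := ι.toAlgebra
  haveI : IsScalarTower ℚ (AlgebraicClosure ℚ) ℂ := IsScalarTower.of_algebraMap_eq fun x => by
    show algebraMap ℚ ℂ x = ι (algebraMap ℚ (AlgebraicClosure ℚ) x)
    rw [eq_ratCast, eq_ratCast, map_ratCast]
  have hι : ∀ x : AlgebraicClosure ℚ, algebraMap (AlgebraicClosure ℚ) ℂ x = ι x := fun _ => rfl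
  let χ : ℂ ≃ₐ[ℚ] ℂ := Complex.conjAe.restrictScalars ℚ
  have hχ : ∀ z : ℂ, χ z = (starRingEnd ℂ) z := fun z => rfl
  refine ⟨χ.restrictNormal (AlgebraicClosure ℚ), fun x => ?_⟩
  have := AlgEquiv.restrictNormal_commutes χ (AlgebraicClosure ℚ) x
  rw [hι, hι, hχ] at this
  exact this

/-- The mod `3` cyclotomic character of a complex conjugation is `-1`. -/
theorem cyclo_of_conj230 (ι : AlgebraicClosure ℚ →+* ℂ) (c : Γℚ)
    (hc : ∀ x : AlgebraicClosure ℚ, ι (c x) = (starRingEnd ℂ) (ι x)) :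
    modThreeCyclotomicChar c = -1 := by
  have hval : ((-1 : (ZMod 3)ˣ) : ZMod 3).val = 2 := by decide
  have key : ((-1 : (ZMod 3)ˣ) : ZMod 3) = modularCyclotomicCharacter (AlgebraicClosure ℚ)
      (IsAlgClosed.card_rootsOfUnity_eq (AlgebraicClosure ℚ) 3)
      (c : AlgebraicClosure ℚ ≃+* AlgebraicClosure ℚ) := by
    apply modularCyclotomicCharacter.unique
    intro t ht
    rw [hval]
    have ht3 : (t : AlgebraicClosure ℚ) ^ 3 = 1 := by
      have := (mem_rootsOfUnity 3 t).1 ht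
      rw [← Units.val_pow_eq_pow_val, this, Units.val_one]
    have hz3 : ι (t : AlgebraicClosure ℚ) ^ 3 = 1 := by rw [← map_pow, ht3, map_one]
    have hnorm : ‖ι (t : AlgebraicClosure ℚ)‖ = 1 :=
      Complex.norm_eq_one_of_pow_eq_one hz3 (by norm_num)
    have h1 : ι (t : AlgebraicClosure ℚ) * (starRingEnd ℂ) (ι (t : AlgebraicClosure ℚ)) = 1 := by
      rw [Complex.mul_conj, Complex.normSq_eq_norm_sq, hnorm]
      norm_num
    have h2 : ι (t : AlgebraicClosure ℚ) * ι ((t : AlgebraicClosure ℚ) ^ 2) = 1 := by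
      rw [map_pow, ← pow_succ']
      exact hz3
    have hz : ι (t : AlgebraicClosure ℚ) ≠ 0 := by
      intro h0
      rw [h0] at hz3
      norm_num at hz3
    have h3 : ι (c (t : AlgebraicClosure ℚ)) = ι ((t : AlgebraicClosure ℚ) ^ 2) := by
      rw [hc]
      exact mul_left_cancel₀ hz (h1.trans h2.symm)
    exact ι.injective h3
  apply Units.ext
  rw [modThreeCyclotomicChar_apply]
  exact key.symm

/-! ## `E` is totally complex -/

/-- **Every infinite place of `E = fieldE ρ` is complex.** -/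
theorem isComplex_fieldE230 {ρ : Γℚ →* GL (Fin 2) (ZMod 3)}
    (hcont : Continuous ρ)
    (hdet : ∀ σ : Γℚ, Matrix.GeneralLinearGroup.det (ρ σ) = modThreeCyclotomicChar σ)
    (u : InfinitePlace (fieldE ρ)) : u.IsComplex := by
  rw [← InfinitePlace.not_isReal_iff_isComplex]
  intro hreal
  have hφ : ∀ x : fieldE ρ, (starRingEnd ℂ) (u.embedding x) = u.embedding x := by
    intro x
    have h := (InfinitePlace.isReal_iff.mp hreal)
    exact RingHom.congr_fun (ComplexEmbedding.isReal_iff.mp h) x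
  -- extend the embedding to `ℚ̄`
  letI : Algebra (fieldE ρ) ℂ := u.embedding.toAlgebra
  haveI : Algebra.IsAlgebraic ℚ (AlgebraicClosure ℚ) := AlgebraicClosure.isAlgebraic ℚ
  haveI : Algebra.IsAlgebraic (fieldE ρ) (AlgebraicClosure ℚ) :=
    Algebra.IsAlgebraic.tower_top (K := ℚ) (fieldE ρ)
  let ι₀ : AlgebraicClosure ℚ →ₐ[fieldE ρ] ℂ := IsAlgClosed.lift
  have hι₀ : ∀ x : fieldE ρ, ι₀ (x : AlgebraicClosure ℚ) = u.embedding x := fun x =>
    ι₀.commutes x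
  obtain ⟨c, hc⟩ := exists_conj230 ι₀.toRingHom
  have hc' : ∀ x : AlgebraicClosure ℚ, ι₀ (c x) = (starRingEnd ℂ) (ι₀ x) := hc
  have hfix : c ∈ (fieldE ρ).fixingSubgroup := by
    rw [IntermediateField.mem_fixingSubgroup_iff]
    intro x hx
    apply ι₀.toRingHom.injective
    show ι₀ (c x) = ι₀ x
    rw [hc', hι₀ ⟨x, hx⟩, hφ]
  rw [fixingSubgroup_fieldE230 hcont] at hfix
  have h1 := det_of_mem_subQ8_230 hfix
  rw [hdet, cyclo_of_conj230 ι₀.toRingHom c hc] at h1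
  exact absurd h1 (by decide)

/-! ## Group theory in `GL₂(𝔽₃)`, on the entries -/

/-- Entries form of `Q8 = {g | det g = 1, g ^ 4 = 1}`. -/
def Q8E230 (a b c d : ZMod 3) : Prop :=
  a * d - b * c = 1 ∧ (a + d = 0 ∨ (b = 0 ∧ c = 0 ∧ a = d))

/-- Entries form of `C₄ = ⟨g₀⟩ = {±1, ±g₀}`, `g₀ = [[0,-1],[1,0]]`. -/
def C4E230 (a b c d : ZMod 3) : Prop :=
  (b = 0 ∧ c = 0 ∧ a = d ∧ a ≠ 0) ∨ (a = 0 ∧ d = 0 ∧ b = -c ∧ c ≠ 0)

instance : ∀ a b c d : ZMod 3, Decidable (Q8E230 a b c d) := fun a b c d => by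
  unfold Q8E230; infer_instance

instance : ∀ a b c d : ZMod 3, Decidable (C4E230 a b c d) := fun a b c d => by
  unfold C4E230; infer_instance

theorem pow_four_entries230 : ∀ a b c d : ZMod 3, a * d - b * c = 1 →
    ((!![a, b; c, d] : Matrix (Fin 2) (Fin 2) (ZMod 3)) ^ 4 = 1 ↔
      (a + d = 0 ∨ (b = 0 ∧ c = 0 ∧ a = d))) := by
  decide

theorem q8E_mul230 : ∀ a b c d a' b' c' d' : ZMod 3, Q8E230 a b c d → Q8E230 a' b' c' d' →
    Q8E230 (a * a' + b * c') (a * b' + b * d') (c * a' + d * c') (c * b' + d * d') := by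
  decide

theorem c4E_mul230 : ∀ a b c d a' b' c' d' : ZMod 3, C4E230 a b c d → C4E230 a' b' c' d' →
    C4E230 (a * a' + b * c') (a * b' + b * d') (c * a' + d * c') (c * b' + d * d') := by
  decide

theorem c4E_le_q8E230 : ∀ a b c d : ZMod 3, C4E230 a b c d → Q8E230 a b c d := by
  decide

/-- the two cosets of `C₄` in `Q8`: right multiplication by `g₁ = [[1,1],[1,-1]]` -/
theorem xor_entries230 : ∀ p q r s : ZMod 3, Q8E230 p q r s →
    (C4E230 (p + q) (p - q) (r + s) (r - s) ∧ ¬ C4E230 p q r s) ∨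
      (C4E230 p q r s ∧ ¬ C4E230 (p + q) (p - q) (r + s) (r - s)) := by
  decide

theorem g1_entries230 : Q8E230 1 1 1 (-1) := by decide

/-! ## The subgroups `Q8` and `C₄` of `GL₂(𝔽₃)` -/

/-- `g ∈ GL₂(𝔽₃)` has the entries property `P`. -/
def HasEntries230 (P : ZMod 3 → ZMod 3 → ZMod 3 → ZMod 3 → Prop) (g : GL (Fin 2) (ZMod 3)) : Prop :=
  P ((g : Matrix (Fin 2) (Fin 2) (ZMod 3)) 0 0) ((g : Matrix (Fin 2) (Fin 2) (ZMod 3)) 0 1)
    ((g : Matrix (Fin 2) (Fin 2) (ZMod 3)) 1 0) ((g : Matrix (Fin 2) (Fin 2) (ZMod 3)) 1 1)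

theorem hasEntries_mul230 {P : ZMod 3 → ZMod 3 → ZMod 3 → ZMod 3 → Prop}
    (hP : ∀ a b c d a' b' c' d' : ZMod 3, P a b c d → P a' b' c' d' →
      P (a * a' + b * c') (a * b' + b * d') (c * a' + d * c') (c * b' + d * d'))
    {g h : GL (Fin 2) (ZMod 3)} (hg : HasEntries230 P g) (hh : HasEntries230 P h) :
    HasEntries230 P (g * h) := by
  unfold HasEntries230 at *
  have := hP _ _ _ _ _ _ _ _ hg hh
  simpa [Matrix.mul_apply, Fin.sum_univ_two] using this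

theorem inQ8_iff230 (g : GL (Fin 2) (ZMod 3)) : InQ8 g ↔ HasEntries230 Q8E230 g := by
  unfold InQ8 HasEntries230 Q8E230
  have hdet : Matrix.GeneralLinearGroup.det g = 1 ↔
      (g : Matrix (Fin 2) (Fin 2) (ZMod 3)) 0 0 * (g : Matrix (Fin 2) (Fin 2) (ZMod 3)) 1 1
        - (g : Matrix (Fin 2) (Fin 2) (ZMod 3)) 0 1 * (g : Matrix (Fin 2) (Fin 2) (ZMod 3)) 1 0
        = 1 := by
    rw [Units.ext_iff, Matrix.GeneralLinearGroup.val_det_apply, Matrix.det_fin_two]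
    rfl
  have hpow : g ^ 4 = 1 ↔ (g : Matrix (Fin 2) (Fin 2) (ZMod 3)) ^ 4 = 1 := by
    rw [Units.ext_iff, Units.val_pow_eq_pow_val]
    rfl
  rw [hdet, hpow]
  constructor
  · rintro ⟨h1, h2⟩
    refine ⟨h1, ?_⟩
    rw [Matrix.eta_fin_two (g : Matrix (Fin 2) (Fin 2) (ZMod 3))] at h2
    exact (pow_four_entries230 _ _ _ _ h1).mp h2
  · rintro ⟨h1, h2⟩
    refine ⟨h1, ?_⟩
    rw [Matrix.eta_fin_two (g : Matrix (Fin 2) (Fin 2) (ZMod 3))]
    exact (pow_four_entries230 _ _ _ _ h1).mpr h2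

theorem inQ8_mul230 {g h : GL (Fin 2) (ZMod 3)} (hg : InQ8 g) (hh : InQ8 h) : InQ8 (g * h) := by
  rw [inQ8_iff230] at *
  exact hasEntries_mul230 q8E_mul230 hg hh

theorem inQ8_one230 : InQ8 (1 : GL (Fin 2) (ZMod 3)) := ⟨map_one _, one_pow 4⟩

theorem inv_eq_pow_three230 {g : GL (Fin 2) (ZMod 3)} (hg : InQ8 g) : g⁻¹ = g * g * g := by
  rw [inv_eq_iff_mul_eq_one]
  have := hg.2
  rw [← this]
  simp only [pow_succ, pow_zero, one_mul, mul_assoc]

/-- `Q8 = {g | det g = 1, g ^ 4 = 1}` as a subgroup of `GL₂(𝔽₃)`. -/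
def Q8grp230 : Subgroup (GL (Fin 2) (ZMod 3)) where
  carrier := {g | InQ8 g}
  one_mem' := inQ8_one230
  mul_mem' := fun hg hh => inQ8_mul230 hg hh
  inv_mem' := fun {g} hg => by
    show InQ8 g⁻¹
    rw [inv_eq_pow_three230 hg]
    exact inQ8_mul230 (inQ8_mul230 hg hg) hg

theorem mem_Q8grp230 {g : GL (Fin 2) (ZMod 3)} : g ∈ Q8grp230 ↔ InQ8 g := Iff.rfl

/-- `C₄ = {±1, ±g₀}` as a subgroup of `GL₂(𝔽₃)`. -/
def C4grp230 : Subgroup (GL (Fin 2) (ZMod 3)) where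
  carrier := {g | HasEntries230 C4E230 g}
  one_mem' := by
    show HasEntries230 C4E230 1
    unfold HasEntries230
    simp only [Units.val_one, Matrix.one_apply_eq, ne_eq, not_false_eq_true, Matrix.one_apply_ne,
      zero_ne_one, one_ne_zero]
    decide
  mul_mem' := fun hg hh => hasEntries_mul230 c4E_mul230 hg hh
  inv_mem' := fun {g} hg => by
    show HasEntries230 C4E230 g⁻¹
    have hq : InQ8 g := (inQ8_iff230 g).mpr (c4E_le_q8E230 _ _ _ _ hg)
    rw [inv_eq_pow_three230 hq]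
    exact hasEntries_mul230 c4E_mul230 (hasEntries_mul230 c4E_mul230 hg hg) hg

theorem mem_C4grp230 {g : GL (Fin 2) (ZMod 3)} : g ∈ C4grp230 ↔ HasEntries230 C4E230 g := Iff.rfl

theorem C4grp_le_Q8grp230 : C4grp230 ≤ Q8grp230 := fun g hg =>
  (inQ8_iff230 g).mpr (c4E_le_q8E230 _ _ _ _ hg)

/-- `g₁ = [[1,1],[1,-1]]`, an element of `Q8` outside `C₄`. -/
def g1_230 : GL (Fin 2) (ZMod 3) :=
  ⟨!![1, 1; 1, -1], !![-1, -1; -1, 1], by decide, by decide⟩

theorem g1_mem230 : g1_230 ∈ Q8grp230 := by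
  rw [mem_Q8grp230, inQ8_iff230]
  unfold HasEntries230 g1_230
  simpa using g1_entries230

/-- **`[Q8 : C₄] = 2`.** -/
theorem relIndex_C4_Q8_230 : C4grp230.relIndex Q8grp230 = 2 := by
  rw [Subgroup.relIndex_eq_two_iff]
  refine ⟨g1_230, g1_mem230, fun b hb => ?_⟩
  have hb' : HasEntries230 Q8E230 b := (inQ8_iff230 b).mp hb
  have key := xor_entries230 _ _ _ _ hb'
  have hmul : (b * g1_230 ∈ C4grp230) ↔
      C4E230 ((b : Matrix (Fin 2) (Fin 2) (ZMod 3)) 0 0 + (b : Matrix (Fin 2) (Fin 2) (ZMod 3)) 0 1)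
        ((b : Matrix (Fin 2) (Fin 2) (ZMod 3)) 0 0 - (b : Matrix (Fin 2) (Fin 2) (ZMod 3)) 0 1)
        ((b : Matrix (Fin 2) (Fin 2) (ZMod 3)) 1 0 + (b : Matrix (Fin 2) (Fin 2) (ZMod 3)) 1 1)
        ((b : Matrix (Fin 2) (Fin 2) (ZMod 3)) 1 0 - (b : Matrix (Fin 2) (Fin 2) (ZMod 3)) 1 1) := by
    rw [mem_C4grp230]
    unfold HasEntries230 g1_230
    simp [Matrix.mul_apply, Fin.sum_univ_two, sub_eq_add_neg]
  rw [hmul]
  exact key

/-! ## The fields `E ⊂ L` -/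

theorem subQ8_eq_comap230 (ρ : Γℚ →* GL (Fin 2) (ZMod 3)) : subQ8 ρ = Q8grp230.comap ρ := by
  unfold subQ8
  exact Subgroup.closure_eq (Q8grp230.comap ρ)

/-- `ρ⁻¹(C₄)`, `C₄ = ⟨g₀⟩`. -/
def subC4_230 (ρ : Γℚ →* GL (Fin 2) (ZMod 3)) : Subgroup Γℚ := C4grp230.comap ρ

theorem subC4_le_subQ8_230 (ρ : Γℚ →* GL (Fin 2) (ZMod 3)) : subC4_230 ρ ≤ subQ8 ρ := by
  rw [subQ8_eq_comap230]
  exact Subgroup.comap_mono C4grp_le_Q8grp230

theorem ker_le_subC4_230 (ρ : Γℚ →* GL (Fin 2) (ZMod 3)) : ρ.ker ≤ subC4_230 ρ := by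
  intro σ hσ
  rw [MonoidHom.mem_ker] at hσ
  show ρ σ ∈ C4grp230
  rw [hσ]
  exact C4grp230.one_mem

theorem isOpen_subC4_230 {ρ : Γℚ →* GL (Fin 2) (ZMod 3)} (hρ : Continuous ρ) :
    IsOpen ((subC4_230 ρ : Subgroup Γℚ) : Set Γℚ) :=
  Subgroup.isOpen_mono (ker_le_subC4_230 ρ) (isOpen_ker230 hρ)

/-- `L`, the fixed field of `ρ⁻¹(C₄)` (as an extension of `ℚ`). -/
def fieldL230 (ρ : Γℚ →* GL (Fin 2) (ZMod 3)) : IntermediateField ℚ (AlgebraicClosure ℚ) :=
  IntermediateField.fixedField (subC4_230 ρ)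

theorem fieldE_le_fieldL230 (ρ : Γℚ →* GL (Fin 2) (ZMod 3)) : fieldE ρ ≤ fieldL230 ρ := by
  intro x hx σ
  exact hx ⟨σ.1, subC4_le_subQ8_230 ρ σ.2⟩

theorem fixingSubgroup_fieldL230 {ρ : Γℚ →* GL (Fin 2) (ZMod 3)} (hρ : Continuous ρ) :
    (fieldL230 ρ).fixingSubgroup = subC4_230 ρ :=
  fixingSubgroup_fixedField_of_isOpen230 _ (isOpen_subC4_230 hρ)

theorem finiteDimensional_fieldL230 {ρ : Γℚ →* GL (Fin 2) (ZMod 3)} (hρ : Continuous ρ) :
    FiniteDimensional ℚ (fieldL230 ρ) :=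
  finiteDimensional_fixedField_of_isOpen230 _ (isOpen_subC4_230 hρ)

theorem numberField_fieldL230 {ρ : Γℚ →* GL (Fin 2) (ZMod 3)} (hρ : Continuous ρ) :
    NumberField (fieldL230 ρ) :=
  haveI := finiteDimensional_fieldL230 hρ
  { to_charZero := inferInstance, to_finiteDimensional := inferInstance }

/-- `[ρ⁻¹(Q8) : ρ⁻¹(C₄)] = 2`. -/
theorem relIndex_subC4_subQ8_230 {ρ : Γℚ →* GL (Fin 2) (ZMod 3)}
    (hsurj : Function.Surjective ρ) : (subC4_230 ρ).relIndex (subQ8 ρ) = 2 := by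
  rw [subQ8_eq_comap230]
  unfold subC4_230
  rw [Subgroup.relIndex_comap, Subgroup.map_comap_eq_self_of_surjective hsurj]
  exact relIndex_C4_Q8_230

/-- `[L : ℚ] = 2 [E : ℚ]`. -/
theorem finrank_fieldL_eq230 {ρ : Γℚ →* GL (Fin 2) (ZMod 3)} (hcont : Continuous ρ)
    (hsurj : Function.Surjective ρ) :
    Module.finrank ℚ (fieldL230 ρ) = 2 * Module.finrank ℚ (fieldE ρ) := by
  unfold fieldL230 fieldE
  rw [finrank_fixedField_of_isOpen230 _ (isOpen_subC4_230 hcont),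
    finrank_fixedField_of_isOpen230 _ (isOpen_subQ8_230 hcont),
    ← Subgroup.relIndex_mul_index (subC4_le_subQ8_230 ρ), relIndex_subC4_subQ8_230 hsurj]

/-- `L` as an extension of `E = fieldE ρ`. -/
def fieldLE230 (ρ : Γℚ →* GL (Fin 2) (ZMod 3)) :
    IntermediateField (fieldE ρ) (AlgebraicClosure ℚ) :=
  IntermediateField.extendScalars (fieldE_le_fieldL230 ρ)

theorem mem_fieldLE230 {ρ : Γℚ →* GL (Fin 2) (ZMod 3)} {x : AlgebraicClosure ℚ} :
    x ∈ fieldLE230 ρ ↔ x ∈ fieldL230 ρ := Iff.rfl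

/-- **`[L : E] = 2`.** -/
theorem finrank_fieldLE230 {ρ : Γℚ →* GL (Fin 2) (ZMod 3)} (hcont : Continuous ρ)
    (hsurj : Function.Surjective ρ) :
    Module.finrank (fieldE ρ) (fieldLE230 ρ) = 2 := by
  haveI := finiteDimensional_fieldE230 hcont
  have h1 := IntermediateField.finrank_bot_mul_relfinrank (fieldE_le_fieldL230 ρ)
  rw [IntermediateField.relfinrank_eq_finrank_of_le (fieldE_le_fieldL230 ρ),
    finrank_fieldL_eq230 hcont hsurj] at h1
  have hpos : 0 < Module.finrank ℚ (fieldE ρ) := Module.finrank_pos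
  have h2 : Module.finrank ℚ (fieldE ρ) * Module.finrank (fieldE ρ) (fieldLE230 ρ)
      = Module.finrank ℚ (fieldE ρ) * 2 := by
    rw [mul_comm _ 2]
    exact h1
  exact Nat.eq_of_mul_eq_mul_left hpos h2

/-- `L` (over `E`) is a number field. -/
theorem numberField_fieldLE230 {ρ : Γℚ →* GL (Fin 2) (ZMod 3)} (hρ : Continuous ρ) :
    NumberField (fieldLE230 ρ) :=
  numberField_fieldL230 hρ

/-! ## Summary, in the shape of the first conjuncts of `A2.GalSeedC` -/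

/-- **The field part of `GalSeedC`**: `E = fieldE ρ` is a totally complex number field and
`L` (the fixed field of `ρ⁻¹(C₄)`) is a number field, quadratic over `E`. -/
theorem galSeed_fields230 {ρ : Γℚ →* GL (Fin 2) (ZMod 3)}
    {Ψ : GL (Fin 2) (ZMod 3) →* GL (Fin 2) (ℤ√(-2))} (h : LTB.Hyp ρ Ψ) :
    ∃ (_ : NumberField (fieldE ρ))
      (L : Type) (_ : Field L) (_ : NumberField L) (_ : Algebra (fieldE ρ) L),
      Module.finrank (fieldE ρ) L = 2 ∧ (∀ u : InfinitePlace (fieldE ρ), u.IsComplex) :=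
  ⟨numberField_fieldE230 h.cont, fieldLE230 ρ, inferInstance, numberField_fieldLE230 h.cont,
    inferInstance, finrank_fieldLE230 h.cont h.surj, isComplex_fieldE230 h.cont h.det⟩

end Fermat.Agent.LT.A2.H230

end
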