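import Mathlib
import Fermat.Agent.LT.A2.H230.FieldE
import Fermat.Agent.LT.A2.H38.GalSeedSpec

/-!
# Row LT, tower A2, branch GALSEED: leaves A2.01.02 `NumFieldsC`, A2.01.03 `TotCplxC`,
# A2.01.04 `DegTwoC` (helper230), VERBATIM against `LT/A2/H38/GalSeedSpec.lean` (helper38)

OFF-MAIN.  Registry rows 810, 811, 812.

* `numFieldsC230 : H38.NumFieldsC`
* `totCplxC230   : H38.TotCplxC`
* `degTwoC230    : H38.DegTwoC`

The work is in `FieldE.lean`; here: `H38.C4 = ⟨g0⟩` is the subgroup `C4grp230 = {±1, ±g0}` given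
on the entries, and the tower law for the algebra structure `H38.algEL ρ`.
-/

set_option autoImplicit false
set_option linter.style.haveILetI false

open scoped MatrixGroups
open NumberField WeierstrassCurve

noncomputable section

namespace Fermat.Agent.LT.A2.H230

open Fermat.Agent.LT.H130 Fermat.Agent.LT.A2

local notation "Γℚ" => (AlgebraicClosure ℚ ≃ₐ[ℚ] AlgebraicClosure ℚ)

/-! ## `⟨g0⟩ = {±1, ±g0}` -/

theorem g0_mem_C4grp230 : H38.g0 ∈ C4grp230 := by
  rw [mem_C4grp230]
  unfold HasEntries230 H38.g0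
  show C4E230 _ _ _ _
  simp only [Matrix.of_apply, Matrix.cons_val', Matrix.cons_val_zero, Matrix.cons_val_one,
    Matrix.cons_val_fin_one]
  decide

theorem unit_cases230 : ∀ x : ZMod 3, x ≠ 0 → x = 1 ∨ x = 2 := by decide

theorem neg_cases230 : (-(1 : ZMod 3) = 2) ∧ (-(2 : ZMod 3) = 1) := by decide

theorem g0_sq_val230 :
    ((H38.g0 ^ 2 : GL (Fin 2) (ZMod 3)) : Matrix (Fin 2) (Fin 2) (ZMod 3)) = !![2, 0; 0, 2] := by
  rw [Units.val_pow_eq_pow_val]
  show (!![0, 2; 1, 0] : Matrix (Fin 2) (Fin 2) (ZMod 3)) ^ 2 = _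
  decide

theorem g0_cube_val230 :
    ((H38.g0 ^ 3 : GL (Fin 2) (ZMod 3)) : Matrix (Fin 2) (Fin 2) (ZMod 3)) = !![0, 1; 2, 0] := by
  rw [Units.val_pow_eq_pow_val]
  show (!![0, 2; 1, 0] : Matrix (Fin 2) (Fin 2) (ZMod 3)) ^ 3 = _
  decide

theorem mem_zpowers_of_entries230 {g : GL (Fin 2) (ZMod 3)} (hg : HasEntries230 C4E230 g) :
    g ∈ Subgroup.zpowers H38.g0 := by
  unfold HasEntries230 C4E230 at hg
  have heta := Matrix.eta_fin_two (g : Matrix (Fin 2) (Fin 2) (ZMod 3))
  rcases hg with ⟨hb, hc, had, ha⟩ | ⟨ha, hd, hbc, hc⟩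
  · rcases unit_cases230 _ ha with h1 | h2
    · -- g = 1
      have : g = 1 := by
        apply Units.ext
        rw [heta, hb, hc, ← had, h1, Units.val_one]
        exact (Matrix.one_fin_two).symm
      rw [this]
      exact Subgroup.one_mem _
    · -- g = g0 ^ 2
      have : g = H38.g0 ^ 2 := by
        apply Units.ext
        rw [g0_sq_val230, heta, hb, hc, ← had, h2]
      rw [this]
      exact Subgroup.pow_mem _ (Subgroup.mem_zpowers _) 2
  · rcases unit_cases230 _ hc with h1 | h2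
    · -- g = g0
      have : g = H38.g0 := by
        apply Units.ext
        rw [heta, ha, hd, hbc, h1, neg_cases230.1]
        rfl
      rw [this]
      exact Subgroup.mem_zpowers _
    · -- g = g0 ^ 3
      have : g = H38.g0 ^ 3 := by
        apply Units.ext
        rw [g0_cube_val230, heta, ha, hd, hbc, h2, neg_cases230.2]
      rw [this]
      exact Subgroup.pow_mem _ (Subgroup.mem_zpowers _) 3

/-- `H38.C4 = ⟨g0⟩` is the subgroup `{±1, ±g0}` of `FieldE.lean`. -/
theorem C4_eq230 : H38.C4 = C4grp230 := by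
  apply le_antisymm
  · unfold H38.C4
    rw [Subgroup.zpowers_le]
    exact g0_mem_C4grp230
  · intro g hg
    exact mem_zpowers_of_entries230 hg

theorem subC4_eq230 (ρ : Γℚ →* GL (Fin 2) (ZMod 3)) : H38.subC4 ρ = subC4_230 ρ := by
  unfold H38.subC4 subC4_230
  rw [C4_eq230]

theorem fieldL_eq230 (ρ : Γℚ →* GL (Fin 2) (ZMod 3)) : H38.fieldL ρ = fieldL230 ρ := by
  unfold H38.fieldL fieldL230
  rw [subC4_eq230]

/-! ## The three leaves -/

theorem numberField_H38fieldL230 {ρ : Γℚ →* GL (Fin 2) (ZMod 3)} (hρ : Continuous ρ) :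
    NumberField (H38.fieldL ρ) := by
  rw [fieldL_eq230]
  exact numberField_fieldL230 hρ

/-- **A2.01.02 `NumFieldsC`.** -/
theorem numFieldsC230 : H38.NumFieldsC := fun _ _ h =>
  ⟨numberField_fieldE230 h.cont, numberField_H38fieldL230 h.cont⟩

/-- **A2.01.03 `TotCplxC`.** -/
theorem totCplxC230 : H38.TotCplxC := fun _ _ h u => isComplex_fieldE230 h.cont h.det u

theorem finrank_H38fieldL230 {ρ : Γℚ →* GL (Fin 2) (ZMod 3)} (hcont : Continuous ρ)
    (hsurj : Function.Surjective ρ) :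
    Module.finrank ℚ (H38.fieldL ρ) = 2 * Module.finrank ℚ (fieldE ρ) := by
  rw [fieldL_eq230]
  exact finrank_fieldL_eq230 hcont hsurj

/-- **A2.01.04 `DegTwoC`.** -/
theorem degTwoC230 : H38.DegTwoC := by
  intro ρ Ψ h
  letI := H38.algEL ρ
  show Module.finrank (fieldE ρ) (H38.fieldL ρ) = 2
  haveI : IsScalarTower ℚ (fieldE ρ) (H38.fieldL ρ) :=
    IsScalarTower.of_algebraMap_eq fun x => by
      show algebraMap ℚ (H38.fieldL ρ) x
        = IntermediateField.inclusion (H38.fieldE_le_fieldL ρ) (algebraMap ℚ (fieldE ρ) x)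
      exact ((IntermediateField.inclusion (H38.fieldE_le_fieldL ρ)).commutes x).symm
  haveI := finiteDimensional_fieldE230 h.cont
  have h1 := Module.finrank_mul_finrank ℚ (fieldE ρ) (H38.fieldL ρ)
  rw [finrank_H38fieldL230 h.cont h.surj] at h1
  have hpos : 0 < Module.finrank ℚ (fieldE ρ) := Module.finrank_pos
  have h2 : Module.finrank ℚ (fieldE ρ) * Module.finrank (fieldE ρ) (H38.fieldL ρ)
      = Module.finrank ℚ (fieldE ρ) * 2 := by
    rw [mul_comm _ 2]
    exact h1
  exact Nat.eq_of_mul_eq_mul_left hpos h2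

end Fermat.Agent.LT.A2.H230

end
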